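/-
S55 / layer G / block REC / adapter TOW, leaf DESC-TOW (subtask 555)            (helper934)

`desc_of : G.DescentSpec → DescSpec` and `desc : DescSpec` — the Tower form of G-DESC: for levels
`L ≤ M` of `S ≠ ∅` apply `G.DescentSpec` to `Gal(M/ℚ)` acting on `M.F`, the normal subgroup
`Gal(M/L) = Level.relGal h` and the quotient acting on `L.F` through
`Gal(M/ℚ) ⧸ Gal(M/L) → Gal(L/ℚ)` (helper594's `LevelProj`).
Complete proofs, standard axioms only.
-/
import Fermat.Agent.S55.G.Rec.Tow.Spec
import Fermat.Agent.S55.G.DescH773.Main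

set_option autoImplicit false
set_option linter.style.haveILetI false

open CategoryTheory groupCohomology
open scoped NumberField

noncomputable section

namespace Fermat.Agent.S55.G.Rec.TOW.H934

open Fermat.Agent.S55 Fermat.Agent.S55.Tow Fermat.Agent.S55.E1.H594

/-- **DESC-TOW** from `G.DescentSpec`. -/
theorem desc_of (hD : G.DescentSpec) : DescSpec := by
  intro S hS L M h
  haveI : Finite M.Gal := level_finite_gal M
  letI : Algebra L.F M.F := levelAlgebra h
  letI : MulSemiringAction (M.Gal ⧸ Level.relGal h) L.F := levelQuotAction h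
  obtain ⟨ι, hinj, hequiv, hinv, -⟩ := hD S M.Gal M.F L.F (Level.relGal h) hS
    (level_isUnramOut M) (level_descent_fixed h) (level_descent_equivariant h)
  refine ⟨Rep.ofHom ⟨ι.toIntLinearMap, fun g => LinearMap.ext fun c => ?_⟩, hinj, ?_⟩
  · exact hequiv g c
  · intro c hc
    exact (hinv c).1 (fun n => hc n n.2)

/-- **DESC-TOW**, unconditionally. -/
theorem desc : DescSpec := desc_of G.DescH773.descentSpec

end Fermat.Agent.S55.G.Rec.TOW.H934
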